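import Mathlib.NumberTheory.Padics.AddChar
import Mathlib.RingTheory.ZMod.UnitsCyclic
import Mathlib.NumberTheory.Padics.RingHoms

/-!
# Exponents to the base `1 + p`

For `p` odd `t ↦ (1 + p) ^ t` maps `ℤ_p` onto the numbers congruent to `1`, and congruences modulo
`p ^ m` of exponents match congruences modulo `p ^ (m + 1)` of values. So `x ^ (p - 1)` is
`(1 + p) ^ logOne x` for a unit `x`, with `logOne` continuous.
-/

set_option autoImplicit false
set_option linter.unusedSectionVars false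

noncomputable section

open Filter Topology PadicInt

namespace FA.PadicIwasawa

variable {p : ℕ} [hp : Fact p.Prime]

theorem norm_sub_le_iff {x y : ℤ_[p]} {n : ℕ} :
    ‖x - y‖ ≤ ((p : ℝ)⁻¹) ^ n ↔ toZModPow n x = toZModPow n y := by
  rw [inv_pow, ← zpow_natCast, ← zpow_neg, norm_le_pow_iff_mem_span_pow, ← ker_toZModPow,
    RingHom.mem_ker, map_sub, sub_eq_zero]

theorem toZMod_eq_zero_iff_norm {x : ℤ_[p]} : PadicInt.toZMod x = 0 ↔ ‖x‖ < 1 := by
  rw [← RingHom.mem_ker, PadicInt.ker_toZMod, IsLocalRing.mem_maximalIdeal, mem_nonunits]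

theorem isUnit_iff_of_norm_sub_lt {x y : ℤ_[p]} (h : ‖x - y‖ < 1) : IsUnit x ↔ IsUnit y := by
  rw [← not_iff_not, not_isUnit_iff, not_isUnit_iff, ← toZMod_eq_zero_iff_norm,
    ← toZMod_eq_zero_iff_norm]
  rw [← toZMod_eq_zero_iff_norm, map_sub, sub_eq_zero] at h
  rw [h]

theorem inv_prime_lt_one' : (p : ℝ)⁻¹ < 1 :=
  inv_lt_one_of_one_lt₀ (by exact_mod_cast hp.out.one_lt)

theorem inv_prime_pow_pos (n : ℕ) : (0 : ℝ) < ((p : ℝ)⁻¹) ^ n :=
  pow_pos (inv_pos.2 (by exact_mod_cast hp.out.pos)) n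

theorem norm_prime_lt_one : ‖(p : ℤ_[p])‖ < 1 := by
  rw [norm_p]
  exact inv_prime_lt_one'

variable (p) in
/-- `t ↦ (1 + p) ^ t`. -/
def expOne : AddChar ℤ_[p] ℤ_[p] :=
  addChar_of_value_at_one (p : ℤ_[p]) (tendsto_pow_atTop_nhds_zero_of_norm_lt_one norm_prime_lt_one)

theorem continuous_expOne : Continuous (expOne p) := continuous_addChar_of_value_at_one _

theorem expOne_natCast (n : ℕ) : expOne p (n : ℤ_[p]) = (1 + (p : ℤ_[p])) ^ n := by
  rw [← nsmul_one n, AddChar.map_nsmul_eq_pow, expOne, addChar_of_value_at_one_def]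

theorem toZModPow_expOne_natCast (m n : ℕ) :
    toZModPow m (expOne p (n : ℤ_[p])) = (1 + (p : ZMod (p ^ m))) ^ n := by
  rw [expOne_natCast, map_pow, map_add, map_one, map_natCast]

theorem toZModPow_expOne_eq_one (hp2 : p ≠ 2) (m : ℕ) (t : ℤ_[p]) :
    toZModPow (m + 1) (expOne p t) = 1 ↔ toZModPow m t = 0 := by
  set A := {t : ℤ_[p] | ‖expOne p t - 1‖ ≤ ((p : ℝ)⁻¹) ^ (m + 1)}
  set B := {t : ℤ_[p] | ‖t - 0‖ ≤ ((p : ℝ)⁻¹) ^ m}
  have hnat : ∀ n : ℕ, (n : ℤ_[p]) ∈ A ↔ (n : ℤ_[p]) ∈ B := fun n => by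
    simp only [A, B, Set.mem_ofPred_eq, norm_sub_le_iff, map_one, map_zero, map_natCast,
      toZModPow_expOne_natCast, ← orderOf_dvd_iff_pow_eq_one,
      ZMod.orderOf_one_add_prime hp.out hp2, ZMod.natCast_eq_zero_iff]
  have hA : IsClopen A := by
    have h : A = expOne p ⁻¹' Metric.closedBall 1 (((p : ℝ)⁻¹) ^ (m + 1)) := by
      ext t
      simp [A, dist_eq_norm]
    rw [h]
    exact (IsUltrametricDist.isClopen_closedBall _ (inv_prime_pow_pos _).ne').preimage
      continuous_expOne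
  have hB : IsClopen B := by
    have h : B = Metric.closedBall 0 (((p : ℝ)⁻¹) ^ m) := by
      ext t
      simp [B]
    rw [h]
    exact IsUltrametricDist.isClopen_closedBall _ (inv_prime_pow_pos _).ne'
  have key : ∀ {S T : Set ℤ_[p]}, IsClopen S → IsClopen T →
      (∀ n : ℕ, (n : ℤ_[p]) ∈ S → (n : ℤ_[p]) ∈ T) → ∀ t ∈ S, t ∈ T := fun hS hT h t ht => by
    by_contra htT
    obtain ⟨n, hn⟩ := denseRange_natCast.exists_mem_open (hS.isOpen.inter hT.isClosed.isOpen_compl)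
      ⟨t, ht, htT⟩
    exact hn.2 (h n hn.1)
  have hiff : t ∈ A ↔ t ∈ B :=
    ⟨key hA hB (fun n => (hnat n).1) t, key hB hA (fun n => (hnat n).2) t⟩
  simpa only [A, B, Set.mem_ofPred_eq, norm_sub_le_iff, map_one, map_zero] using hiff

/-- Congruences of exponents. -/
theorem toZModPow_expOne_eq_iff (hp2 : p ≠ 2) {m : ℕ} {s t : ℤ_[p]} :
    toZModPow (m + 1) (expOne p s) = toZModPow (m + 1) (expOne p t) ↔
      toZModPow m s = toZModPow m t := by
  have hu : IsUnit (toZModPow (m + 1) (expOne p t)) := (expOne p).val_isUnit t |>.map _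
  rw [← sub_eq_zero (a := toZModPow m s), ← map_sub, ← toZModPow_expOne_eq_one hp2]
  conv_lhs => rw [show s = (s - t) + t by ring, AddChar.map_add_eq_mul, map_mul]
  exact hu.mul_eq_right

theorem norm_expOne_sub_one_lt (hp2 : p ≠ 2) (t : ℤ_[p]) : ‖expOne p t - 1‖ < 1 := by
  refine lt_of_le_of_lt (norm_sub_le_iff.2 ?_ : ‖expOne p t - 1‖ ≤ ((p : ℝ)⁻¹) ^ 1)
    (by rw [pow_one]; exact inv_prime_lt_one')
  rw [map_one, toZModPow_expOne_eq_one hp2]
  have : Subsingleton (ZMod (p ^ 0)) := ZMod.subsingleton_iff.2 (pow_zero p)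
  exact Subsingleton.elim _ _

theorem expOne_injective (hp2 : p ≠ 2) : Function.Injective (expOne p) := fun _ _ h =>
  ext_of_toZModPow.1 fun m => (toZModPow_expOne_eq_iff hp2).1 (congrArg (toZModPow (m + 1)) h)

/-- **Surjectivity.** -/
theorem exists_expOne_eq (hp2 : p ≠ 2) {x : ℤ_[p]} (hx : ‖x - 1‖ < 1) :
    ∃ t, expOne p t = x := by
  have hcl : IsClosed (Set.range (expOne p)) := (isCompact_range continuous_expOne).isClosed
  suffices h : x ∈ closure (Set.range (expOne p)) by rwa [hcl.closure_eq] at h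
  refine Metric.mem_closure_iff.2 fun ε hε => ?_
  obtain ⟨m, hm⟩ := exists_pow_lt_of_lt_one hε (inv_prime_lt_one' (p := p))
  set T := (Finset.range (p ^ m)).image fun y => 1 + (p : ZMod (p ^ (m + 1))) * (y : ℕ)
  have hT : ∀ z : ℤ_[p], ‖z - 1‖ < 1 → toZModPow (m + 1) z ∈ T := fun z hz => by
    obtain ⟨w, hw⟩ := (norm_lt_one_iff_dvd _).1 hz
    refine Finset.mem_image.2 ⟨(toZModPow (m + 1) w).val % p ^ m,
      Finset.mem_range.2 (Nat.mod_lt _ (pow_pos hp.out.pos m)), ?_⟩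
    rw [sub_eq_iff_eq_add'.1 hw, map_add, map_one, map_mul, map_natCast]
    congr 1
    conv_rhs => rw [← ZMod.natCast_zmod_val (toZModPow (m + 1) w),
      ← Nat.mod_add_div (toZModPow (m + 1) w).val (p ^ m)]
    rw [Nat.cast_add, mul_add, ← Nat.cast_mul p, ← Nat.cast_mul p, ← mul_assoc, ← pow_succ',
      Nat.cast_mul (p ^ (m + 1)), ZMod.natCast_self, zero_mul, add_zero]
  set S := (Finset.range (p ^ m)).image fun n : ℕ => (1 + (p : ZMod (p ^ (m + 1)))) ^ n
  have hST : S = T := by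
    refine Finset.eq_of_subset_of_card_le (fun z hz => ?_) (Finset.card_image_le.trans ?_)
    · obtain ⟨n, -, rfl⟩ := Finset.mem_image.1 hz
      rw [← toZModPow_expOne_natCast]
      exact hT _ (norm_expOne_sub_one_lt hp2 _)
    · refine le_of_eq (Finset.card_image_of_injOn fun a ha b hb h => ?_).symm
      refine pow_injOn_Iio_orderOf ?_ ?_ h <;>
        rw [Set.mem_Iio, ZMod.orderOf_one_add_prime hp.out hp2]
      · exact Finset.mem_range.1 ha
      · exact Finset.mem_range.1 hb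
  obtain ⟨n, -, hn⟩ := Finset.mem_image.1 (hST ▸ hT x hx)
  refine ⟨_, ⟨n, rfl⟩, ?_⟩
  rw [dist_eq_norm]
  refine lt_of_le_of_lt (norm_sub_le_iff.2 ?_) hm
  rw [← cast_toZModPow m (m + 1) (Nat.le_succ m) x,
    ← cast_toZModPow m (m + 1) (Nat.le_succ m) (expOne p _), toZModPow_expOne_natCast, hn]

theorem norm_pow_sub_one_lt {x : ℤ_[p]} (hx : IsUnit x) : ‖x ^ (p - 1) - 1‖ < 1 := by
  rw [← toZMod_eq_zero_iff_norm, map_sub, map_pow, map_one,
    ZMod.pow_card_sub_one_eq_one (hx.map toZMod).ne_zero, sub_self]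

open scoped Classical in
/-- The exponent of `x ^ (p - 1)`. -/
def logOne (x : ℤ_[p]) : ℤ_[p] := if h : ∃ t, expOne p t = x ^ (p - 1) then h.choose else 0

theorem expOne_logOne (hp2 : p ≠ 2) {x : ℤ_[p]} (hx : IsUnit x) :
    expOne p (logOne x) = x ^ (p - 1) := by
  have h : ∃ t, expOne p t = x ^ (p - 1) := exists_expOne_eq hp2 (norm_pow_sub_one_lt hx)
  rw [logOne, dif_pos h]
  exact h.choose_spec

theorem logOne_of_not_isUnit {x : ℤ_[p]} (hx : ¬ IsUnit x) : logOne x = 0 := by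
  rw [logOne, dif_neg]
  rintro ⟨t, ht⟩
  refine hx ((isUnit_pow_iff (Nat.sub_pos_of_lt hp.out.one_lt).ne').1 ?_)
  exact ht ▸ (expOne p).val_isUnit t

theorem toZModPow_logOne (hp2 : p ≠ 2) {m : ℕ} {x y : ℤ_[p]}
    (h : toZModPow (m + 1) x = toZModPow (m + 1) y) :
    toZModPow m (logOne x) = toZModPow m (logOne y) := by
  have hlt : ‖x - y‖ < 1 := lt_of_le_of_lt (norm_sub_le_iff.2 h)
    (pow_lt_one₀ (by positivity) inv_prime_lt_one' (Nat.succ_ne_zero m))
  by_cases hx : IsUnit x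
  · rw [← toZModPow_expOne_eq_iff hp2, expOne_logOne hp2 hx,
      expOne_logOne hp2 ((isUnit_iff_of_norm_sub_lt hlt).1 hx), map_pow, map_pow, h]
  · rw [logOne_of_not_isUnit hx,
      logOne_of_not_isUnit (mt (isUnit_iff_of_norm_sub_lt hlt).2 hx)]

theorem continuous_logOne (hp2 : p ≠ 2) : Continuous fun x : ℤ_[p] => logOne x := by
  refine Metric.continuous_iff.2 fun x ε hε => ?_
  obtain ⟨m, hm⟩ := exists_pow_lt_of_lt_one hε (inv_prime_lt_one' (p := p))
  refine ⟨_, inv_prime_pow_pos (p := p) (m + 1), fun y hy => ?_⟩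
  rw [dist_eq_norm] at hy ⊢
  exact lt_of_le_of_lt (norm_sub_le_iff.2 (toZModPow_logOne hp2 (norm_sub_le_iff.1 hy.le))) hm

/-- The binomial series of `(1 + p) ^ (s t)`. -/
theorem hasSum_expOne_mul (hp2 : p ≠ 2) (s t : ℤ_[p]) :
    HasSum (fun j => mahler j s * (expOne p t - 1) ^ j) (expOne p (s * t)) := by
  set r := expOne p t - 1
  have hr : Tendsto (r ^ ·) atTop (𝓝 0) :=
    tendsto_pow_atTop_nhds_zero_of_norm_lt_one (norm_expOne_sub_one_lt hp2 t)
  have hκ := eq_addChar_of_value_at_one hr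
    (κ := (expOne p).compAddMonoidHom (AddMonoidHom.mulRight t))
    (continuous_expOne.comp (continuous_mul_const t)) (by
      show expOne p (1 * t) = _
      rw [one_mul, add_sub_cancel])
  have h := ContinuousMap.hasSum_apply (hasSum_mahlerSeries hr) s
  simp only [mahlerTerm_apply, smul_eq_mul] at h
  rw [← coe_addChar_of_value_at_one hr, ← hκ] at h
  exact h

end FA.PadicIwasawa
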