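import Fermat.Agent.PadicIwasawa.Exponential
import Fermat.Agent.PadicDirichletL.Branch
import Mathlib.Topology.ContinuousMap.Compact

/-!
# The measure of a character

The sums `∑ g(b) ν_n(b)` converge for every continuous `g`, as `∑_i ν_(n+1)(b + p^n i) = ν_n(b)`.
The limit is the continuous functional with moments `-(1 - χ(p) p^(m-1)) B_{m,χ} / m` at
`x^(m-1)`, and by Mahler's theorem these determine it.
-/

set_option autoImplicit false
set_option linter.unusedSectionVars false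
set_option linter.style.haveILetI false

noncomputable section

open Finset Filter Topology
open FA.PadicDirichletL (nu unitRes sum_range_blocks sum_range_eq_sum_zmod lValue)

namespace FA.PadicIwasawa

variable {p : ℕ} [hp : Fact p.Prime] {f : ℕ} [NeZero f]

variable (p) in
/-- The inclusion of `ℤ_p`. -/
def toCp : ℤ_[p] →+* ℂ_[p] := (algebraMap ℚ_[p] ℂ_[p]).comp PadicInt.Coe.ringHom

theorem toCp_apply (x : ℤ_[p]) : toCp p x = ((x : ℚ_[p]) : ℂ_[p]) := rfl

theorem norm_toCp (x : ℤ_[p]) : ‖toCp p x‖ = ‖x‖ :=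
  PadicComplex.norm_extends' p (x : ℚ_[p])

theorem norm_toCp_le (x : ℤ_[p]) : ‖toCp p x‖ ≤ 1 := (norm_toCp x).trans_le (PadicInt.norm_le_one x)

theorem continuous_toCp : Continuous (toCp p) :=
  (AddMonoidHomClass.isometry_of_norm (toCp p) norm_toCp).continuous

variable (p) in
/-- `x ↦ x ^ j`. -/
def powMap (j : ℕ) : C(ℤ_[p], ℂ_[p]) := ⟨fun x => toCp p x ^ j, continuous_toCp.pow j⟩

theorem powMap_apply (j : ℕ) (x : ℤ_[p]) : powMap p j x = toCp p x ^ j := rfl

/-- The Riemann sums. -/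
def sumNu (χ : DirichletCharacter ℂ_[p] f) (g : C(ℤ_[p], ℂ_[p])) (n : ℕ) : ℂ_[p] :=
  ∑ b ∈ unitRes p n, g b * nu χ n b

/-- A sum of residues modulo `p`. -/
theorem sum_div_progression (hfp : f.Coprime p) (r : ℕ) :
    (p : ℤ) * ∑ q ∈ range p, (((r + f * q) / p : ℕ) : ℤ) =
      p * r + ((f : ℤ) * ∑ q ∈ range p, (q : ℤ) - ∑ q ∈ range p, (q : ℤ)) := by
  have h : ∑ q ∈ range p, (r + f * q) % p = ∑ q ∈ range p, q := by
    haveI : NeZero p := ⟨hp.out.ne_zero⟩
    obtain ⟨w, hw⟩ := (ZMod.isUnit_iff_coprime f p).2 hfp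
    rw [sum_range_eq_sum_zmod, sum_range_eq_sum_zmod]
    refine Fintype.sum_bijective (fun q : ZMod p => (r : ZMod p) + (f : ZMod p) * q)
      ((AddGroup.addLeft_bijective (r : ZMod p)).comp ?_) _ _ fun q => ?_
    · rw [← hw]
      exact Units.mulLeft_bijective _
    · rw [← ZMod.val_natCast, Nat.cast_add, Nat.cast_mul, ZMod.natCast_zmod_val]
  have h' : ∑ q ∈ range p, (((r + f * q) % p : ℕ) : ℤ) = ∑ q ∈ range p, (q : ℤ) := by
    rw [← Nat.cast_sum, h, Nat.cast_sum]
  rw [mul_sum, sum_congr rfl fun q _ => show (p : ℤ) * (((r + f * q) / p : ℕ) : ℤ) =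
      ((r : ℤ) + (f : ℤ) * q) - (((r + f * q) % p : ℕ) : ℤ) by
    have := congrArg (fun x : ℕ => (x : ℤ)) (Nat.div_add_mod (r + f * q) p)
    push_cast at this ⊢
    linarith, sum_sub_distrib, h', sum_add_distrib, sum_const, card_range, nsmul_eq_mul, ← mul_sum]
  ring

/-- **The distribution relation.** -/
theorem sum_nu_succ (hfp : f.Coprime p) {χ : DirichletCharacter ℂ_[p] f} (hne : χ ≠ 1) (n b : ℕ) :
    ∑ i ∈ range p, nu χ (n + 1) (b + p ^ n * i) = nu χ n b := by
  set G : ℕ → ℂ_[p] := fun m => χ ((b + p ^ n * m : ℕ) : ZMod f)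
  have hG : ∀ r q, G (r + f * q) = G r := fun r q => by
    simp only [G]
    push_cast
    rw [ZMod.natCast_self, zero_mul, add_zero]
  have hp0 : (p : ℂ_[p]) ≠ 0 := FA.GrossKoblitz.natCast_prime_ne_zero
  have hG0 : ∑ r ∈ range f, G r = 0 := FA.PadicDirichletL.sum_char_shift hfp hne n b
  have h1 : ∑ i ∈ range p, ∑ c ∈ range f, (c : ℂ_[p]) * G (i + p * c) =
      ∑ r ∈ range f, G r * ∑ q ∈ range p, (((r + f * q) / p : ℕ) : ℂ_[p]) := by
    set H : ℕ → ℂ_[p] := fun m => G m * ((m / p : ℕ) : ℂ_[p])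
    calc _ = ∑ i ∈ range p, ∑ c ∈ range f, H (i + p * c) := by
          refine sum_congr rfl fun i hi => sum_congr rfl fun c _ => ?_
          simp only [H]
          rw [Nat.add_mul_div_left _ _ hp.out.pos, Nat.div_eq_of_lt (mem_range.1 hi), zero_add,
            mul_comm]
      _ = ∑ r ∈ range f, ∑ q ∈ range p, H (r + f * q) := by
          rw [← sum_range_blocks, ← sum_range_blocks, mul_comm p f]
      _ = _ := sum_congr rfl fun r _ => by
          rw [mul_sum]
          exact sum_congr rfl fun q _ => by simp only [H, hG]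
  have h2 : ∀ r : ℕ, ∑ q ∈ range p, (((r + f * q) / p : ℕ) : ℂ_[p]) = r +
      (p : ℂ_[p])⁻¹ * ((f : ℂ_[p]) * ∑ q ∈ range p, (q : ℂ_[p]) - ∑ q ∈ range p, (q : ℂ_[p])) :=
    fun r => by
      have h := congrArg (fun x : ℤ => (x : ℂ_[p])) (sum_div_progression hfp r)
      simp only [Int.cast_mul, Int.cast_sum, Int.cast_natCast, Int.cast_add, Int.cast_sub] at h
      rw [eq_comm, ← mul_right_inj' hp0, mul_add, mul_inv_cancel_left₀ hp0, h]
  have hidx : ∀ i c, b + p ^ n * i + p ^ (n + 1) * c = b + p ^ n * (i + p * c) := fun i c => by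
    ring
  simp only [nu, hidx, ← mul_sum]
  congr 1
  refine h1.trans ?_
  simp only [h2, mul_add, sum_add_distrib, ← sum_mul, hG0, zero_mul, add_zero]
  exact sum_congr rfl fun r _ => mul_comm _ _

theorem unitRes_succ_sum {n : ℕ} (hn : n ≠ 0) (F : ℕ → ℂ_[p]) :
    ∑ a ∈ unitRes p (n + 1), F a = ∑ b ∈ unitRes p n, ∑ i ∈ range p, F (b + p ^ n * i) := by
  rw [unitRes, sum_filter, unitRes, sum_filter, pow_succ, sum_range_blocks (p ^ n)]
  refine sum_congr rfl fun b _ => ?_
  simp only [FA.PadicDirichletL.dvd_add_pow_mul_iff hn]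
  by_cases hb : p ∣ b <;> simp [hb]

theorem cauchySeq_sumNu (hfp : f.Coprime p) {χ : DirichletCharacter ℂ_[p] f} (hne : χ ≠ 1)
    (g : C(ℤ_[p], ℂ_[p])) : CauchySeq (sumNu χ g) := by
  refine NonarchimedeanAddGroup.cauchySeq_of_tendsto_sub_nhds_zero ?_
  rw [Metric.tendsto_atTop]
  intro ε hε
  obtain ⟨δ, hδ, hg⟩ := Metric.uniformContinuous_iff.1
    (CompactSpace.uniformContinuous_of_continuous g.continuous) ε hε
  obtain ⟨N, hN⟩ := exists_pow_lt_of_lt_one hδ (inv_prime_lt_one' (p := p))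
  refine ⟨max N 1, fun n hn => ?_⟩
  have hn0 : n ≠ 0 := by omega
  rw [dist_zero_right, sumNu, sumNu, unitRes_succ_sum hn0, ← sum_sub_distrib]
  obtain ⟨r, hr, hle⟩ : ∃ r : ℝ, r < ε ∧ ∀ b ∈ unitRes p n,
      ‖(∑ i ∈ range p, g ((b + p ^ n * i : ℕ) : ℤ_[p]) * nu χ (n + 1) (b + p ^ n * i)) -
        g b * nu χ n b‖ ≤ r := by
    refine (unitRes p n).eq_empty_or_nonempty.elim (fun h => ⟨0, hε, by simp [h]⟩) fun h => ?_
    obtain ⟨c, hc, hmax⟩ := (unitRes p n).exists_max_image (fun b =>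
      ‖(∑ i ∈ range p, g ((b + p ^ n * i : ℕ) : ℤ_[p]) * nu χ (n + 1) (b + p ^ n * i)) -
        g b * nu χ n b‖) h
    refine ⟨_, ?_, hmax⟩
    rw [← sum_nu_succ hfp hne n c, mul_sum, ← sum_sub_distrib]
    obtain ⟨i, -, hi⟩ := (range p).exists_max_image (fun i => ‖g ((c + p ^ n * i : ℕ) : ℤ_[p]) -
      g c‖) ⟨0, mem_range.2 hp.out.pos⟩
    have hlt : ‖g ((c + p ^ n * i : ℕ) : ℤ_[p]) - g c‖ < ε := by
      rw [← dist_eq_norm]
      refine hg ?_
      rw [dist_eq_norm, Nat.cast_add, add_sub_cancel_left, Nat.cast_mul, Nat.cast_pow, norm_mul,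
        norm_pow, PadicInt.norm_p]
      exact ((mul_le_of_le_one_right (by positivity) (PadicInt.norm_le_one _)).trans
        (pow_le_pow_of_le_one (by positivity) inv_prime_lt_one'.le (by omega))).trans_lt hN
    refine lt_of_le_of_lt (IsUltrametricDist.norm_sum_le_of_forall_le_of_nonneg (norm_nonneg _)
      fun j hj => ?_) hlt
    rw [← sub_mul, norm_mul]
    exact (mul_le_of_le_one_right (norm_nonneg _) (FA.PadicDirichletL.norm_nu_le hfp χ _ _)).trans
      (hi j hj)
  rcases (unitRes p n).eq_empty_or_nonempty with h | ⟨b, hb⟩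
  · simpa [h] using hε
  · exact (IsUltrametricDist.norm_sum_le_of_forall_le_of_nonneg
      ((norm_nonneg _).trans (hle b hb)) hle).trans_lt hr

/-- The limit of the sums. -/
def mass (χ : DirichletCharacter ℂ_[p] f) (g : C(ℤ_[p], ℂ_[p])) : ℂ_[p] :=
  -limUnder atTop (sumNu χ g)

theorem tendsto_sumNu (hfp : f.Coprime p) {χ : DirichletCharacter ℂ_[p] f} (hne : χ ≠ 1)
    (g : C(ℤ_[p], ℂ_[p])) : Tendsto (sumNu χ g) atTop (𝓝 (-mass χ g)) := by
  rw [mass, neg_neg]
  exact (cauchySeq_sumNu hfp hne g).tendsto_limUnder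

variable (hfp : f.Coprime p) {χ : DirichletCharacter ℂ_[p] f} (hne : χ ≠ 1)

include hfp hne

theorem mass_add (g h : C(ℤ_[p], ℂ_[p])) : mass χ (g + h) = mass χ g + mass χ h := by
  have h1 : Tendsto (sumNu χ (g + h)) atTop (𝓝 (-mass χ g + -mass χ h)) :=
    ((tendsto_sumNu hfp hne g).add (tendsto_sumNu hfp hne h)).congr fun n => by
      simp only [sumNu, ← sum_add_distrib, ContinuousMap.add_apply, add_mul]
  exact neg_injective ((tendsto_nhds_unique (tendsto_sumNu hfp hne (g + h)) h1).trans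
    (neg_add _ _).symm)

theorem mass_smul (a : ℂ_[p]) (g : C(ℤ_[p], ℂ_[p])) : mass χ (a • g) = a * mass χ g := by
  have h1 : Tendsto (sumNu χ (a • g)) atTop (𝓝 (a * -mass χ g)) :=
    ((tendsto_sumNu hfp hne g).const_mul a).congr fun n => by
      simp only [sumNu, mul_sum, ContinuousMap.smul_apply, smul_eq_mul, mul_assoc]
  exact neg_injective ((tendsto_nhds_unique (tendsto_sumNu hfp hne (a • g)) h1).trans
    (mul_neg _ _))

theorem norm_mass_le (g : C(ℤ_[p], ℂ_[p])) : ‖mass χ g‖ ≤ ‖g‖ := by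
  rw [← norm_neg]
  refine le_of_tendsto' (tendsto_sumNu hfp hne g).norm fun n => ?_
  refine IsUltrametricDist.norm_sum_le_of_forall_le_of_nonneg (norm_nonneg _) fun b _ => ?_
  rw [norm_mul]
  exact (mul_le_of_le_one_right (norm_nonneg _) (FA.PadicDirichletL.norm_nu_le hfp χ n b)).trans
    (g.norm_coe_le_norm _)

/-- **The measure.** -/
def charMeasure : C(ℤ_[p], ℂ_[p]) →L[ℂ_[p]] ℂ_[p] :=
  LinearMap.mkContinuous
    { toFun := mass χ
      map_add' := mass_add hfp hne
      map_smul' := mass_smul hfp hne } 1 fun g => by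
    rw [one_mul]
    exact norm_mass_le hfp hne g

theorem charMeasure_apply (g : C(ℤ_[p], ℂ_[p])) : charMeasure hfp hne g = mass χ g := rfl

theorem norm_charMeasure_le (g : C(ℤ_[p], ℂ_[p])) : ‖charMeasure hfp hne g‖ ≤ ‖g‖ :=
  norm_mass_le hfp hne g

/-- It lives on the units. -/
theorem charMeasure_congr {g h : C(ℤ_[p], ℂ_[p])} (H : ∀ x, IsUnit x → g x = h x) :
    charMeasure hfp hne g = charMeasure hfp hne h := by
  refine neg_injective (tendsto_nhds_unique (tendsto_sumNu hfp hne g)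
    ((tendsto_sumNu hfp hne h).congr fun n => sum_congr rfl fun b hb => ?_))
  rw [H]
  rw [PadicInt.isUnit_iff, ← norm_toCp, map_natCast]
  exact FA.GrossKoblitz.norm_natCast_eq_one (FA.PadicDirichletL.not_dvd_of_mem hb)

/-- **The moments.** -/
theorem charMeasure_powMap {m : ℕ} (hm : 1 ≤ m) :
    charMeasure hfp hne (powMap p (m - 1)) = lValue χ m := by
  refine neg_injective (tendsto_nhds_unique (tendsto_sumNu hfp hne _) ?_)
  refine (FA.PadicDirichletL.tendsto_riemannSum hfp hne hm).congr fun n => sum_congr rfl fun b _ =>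
    ?_
  rw [powMap_apply, map_natCast, ← zpow_natCast]
  push_cast [hm]
  rfl

omit hfp hne

variable (p) in
/-- A continuous function with values in `ℤ_p`, in `ℂ_p`. -/
def toCpMap : C(ℤ_[p], ℤ_[p]) →+ C(ℤ_[p], ℂ_[p]) where
  toFun h := (⟨toCp p, continuous_toCp⟩ : C(ℤ_[p], ℂ_[p])).comp h
  map_zero' := ContinuousMap.ext fun _ => map_zero (toCp p)
  map_add' h k := ContinuousMap.ext fun x => map_add (toCp p) (h x) (k x)

theorem toCpMap_apply (h : C(ℤ_[p], ℤ_[p])) (x : ℤ_[p]) : toCpMap p h x = toCp p (h x) := rfl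

theorem continuous_toCpMap : Continuous (toCpMap p) :=
  ContinuousMap.continuous_postcomp (⟨toCp p, continuous_toCp⟩ : C(ℤ_[p], ℂ_[p]))

variable (p) in
/-- The binomial function. -/
def binomMap (j : ℕ) : C(ℤ_[p], ℂ_[p]) := toCpMap p (mahler j)

/-- A functional is determined by the moments. -/
theorem eq_of_moments {L L' : C(ℤ_[p], ℂ_[p]) →L[ℂ_[p]] ℂ_[p]}
    (h : ∀ j, L (powMap p j) = L' (powMap p j)) : L = L' := by
  set X₁ : C(ℤ_[p], ℂ_[p]) := ⟨toCp p, continuous_toCp⟩
  set ev : Polynomial ℤ →+* C(ℤ_[p], ℂ_[p]) := Polynomial.eval₂RingHom (Int.castRingHom _) X₁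
  have hmon : ∀ (j : ℕ) (a : ℤ), ev (Polynomial.monomial j a) = (a : ℂ_[p]) • powMap p j :=
    fun j a => by
      ext x
      simp [ev, X₁, powMap_apply]
  have hev : ∀ (P : Polynomial ℤ) (x : ℤ_[p]), ev P x = toCp p (P.smeval x) := fun P x => by
    induction P using Polynomial.induction_on' with
    | add P Q hP hQ =>
      rw [map_add, ContinuousMap.add_apply, hP, hQ, Polynomial.smeval_add, map_add]
    | monomial j a =>
      rw [hmon, Polynomial.smeval_monomial, zsmul_eq_mul, map_mul, map_intCast,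
        map_pow, ContinuousMap.smul_apply, smul_eq_mul, powMap_apply]
  have hpoly : ∀ P : Polynomial ℤ, L (ev P) = L' (ev P) := fun P => by
    induction P using Polynomial.induction_on' with
    | add P Q hP hQ => rw [map_add, map_add, map_add, hP, hQ]
    | monomial j a => rw [hmon, map_smul, map_smul, h]
  have hbin : ∀ j, L (binomMap p j) = L' (binomMap p j) := fun j => by
    have e : ev (descPochhammer ℤ j) = (j.factorial : ℂ_[p]) • binomMap p j := by
      ext x
      rw [hev, ContinuousMap.smul_apply, smul_eq_mul, Ring.descPochhammer_eq_factorial_smul_choose,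
        nsmul_eq_mul, map_mul, map_natCast]
      rfl
    have h1 := hpoly (descPochhammer ℤ j)
    rw [e, map_smul, map_smul, smul_eq_mul, smul_eq_mul] at h1
    exact mul_left_cancel₀ (Nat.cast_ne_zero.2 j.factorial_ne_zero) h1
  have hint : ∀ g : C(ℤ_[p], ℤ_[p]), L (toCpMap p g) = L' (toCpMap p g) := fun g => by
    have hg := (PadicInt.hasSum_mahler g).map (toCpMap p) continuous_toCpMap
    refine (hg.mapL L).unique ?_
    refine (hg.mapL L').congr_fun fun j => ?_
    have e : toCpMap p (PadicInt.mahlerTerm ((fwdDiff (1 : ℤ_[p]))^[j] (⇑g) 0) j) =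
        toCp p ((fwdDiff (1 : ℤ_[p]))^[j] (⇑g) 0) • binomMap p j := by
      ext x
      rw [toCpMap_apply, PadicInt.mahlerTerm_apply, smul_eq_mul, map_mul, mul_comm,
        ContinuousMap.smul_apply, smul_eq_mul, binomMap, toCpMap_apply]
    simp only [Function.comp_apply, e, map_smul, hbin]
  ext g
  have hind : ∀ (n : ℕ) (r : ZMod (p ^ n)),
      Continuous fun x : ℤ_[p] => if PadicInt.toZModPow n x = r then (1 : ℤ_[p]) else 0 :=
    fun n r => by
      refine Metric.continuous_iff.2 fun x ε hε => ⟨_, inv_prime_pow_pos (p := p) n, fun y hy => ?_⟩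
      rw [dist_eq_norm] at hy
      rw [norm_sub_le_iff.1 hy.le, dist_self]
      exact hε
  let approx : ℕ → C(ℤ_[p], ℂ_[p]) := fun n =>
    ∑ r : ZMod (p ^ n), g (r.val : ℤ_[p]) • toCpMap p ⟨_, hind n r⟩
  have happrox : ∀ n x, approx n x = g (((PadicInt.toZModPow n x).val : ℕ) : ℤ_[p]) := fun n x => by
    simp only [approx, ContinuousMap.sum_apply, ContinuousMap.smul_apply, toCpMap_apply,
      ContinuousMap.coe_mk, apply_ite (toCp p), map_one, map_zero, smul_eq_mul, mul_ite, mul_one,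
      mul_zero, Finset.sum_ite_eq, mem_univ, if_true]
  have hlim : Tendsto approx atTop (𝓝 g) := by
    rw [Metric.tendsto_atTop]
    intro ε hε
    obtain ⟨δ, hδ, hg⟩ := Metric.uniformContinuous_iff.1
      (CompactSpace.uniformContinuous_of_continuous g.continuous) ε hε
    obtain ⟨N, hN⟩ := exists_pow_lt_of_lt_one hδ (inv_prime_lt_one' (p := p))
    refine ⟨N, fun n hn => (ContinuousMap.dist_lt_iff hε).2 fun x => ?_⟩
    rw [happrox]
    refine hg ?_
    rw [dist_eq_norm]
    refine lt_of_le_of_lt (norm_sub_le_iff.2 ?_) ((pow_le_pow_of_le_one (by positivity)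
      inv_prime_lt_one'.le hn).trans_lt hN)
    rw [map_natCast, ZMod.natCast_zmod_val]
  refine tendsto_nhds_unique ((L.continuous.tendsto g).comp hlim)
    (((L'.continuous.tendsto g).comp hlim).congr fun n => ?_)
  simp only [Function.comp_apply, approx, map_sum, map_smul, hint]

end FA.PadicIwasawa
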