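import Fermat.Agent.PadicIwasawa.PowerSeries
import Fermat.Agent.PadicClassNumber.Algebraic
import Fermat.Agent.AbelianFE.KlingenSiegel

/-!
# Which branches vanish identically

`B_{m,χ}` is zero if `χ(-1) ≠ (-1)^m`, by the symmetry of the Bernoulli polynomials, and for
`m ≥ 2` of the right parity it is not, `L(1 - m, χ)` being nonzero by the functional equation.
-/

set_option autoImplicit false
set_option linter.unusedSectionVars false
set_option linter.style.haveILetI false

noncomputable section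

open Finset Complex
open FA.PadicDirichletL (branch bernChar lValue)
open FA.PadicClassNumber (algChar toPadic toC AlgNum)
open scoped Classical

namespace FA.PadicIwasawa

variable {p : ℕ} [hp : Fact p.Prime] {f : ℕ} [NeZero f]

/-- **The wrong parity.** -/
theorem bernChar_eq_zero (hf : 1 < f) {χ : DirichletCharacter ℂ_[p] f} {m : ℕ}
    (h : χ (-1) ≠ (-1) ^ m) : bernChar χ m = 0 := by
  haveI : Fact (1 < f) := ⟨hf⟩
  set B : ZMod f → ℂ_[p] := fun a =>
    (((Polynomial.bernoulli m).eval ((a.val : ℚ) / f) : ℚ) : ℂ_[p])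
  have hterm : ∀ a, χ (-a) * B (-a) = (χ (-1) * (-1) ^ m) * (χ a * B a) := fun a => by
    rw [← neg_one_mul a, map_mul, neg_one_mul]
    rcases eq_or_ne a 0 with rfl | ha
    · rw [χ.map_nonunit not_isUnit_zero]
      simp
    haveI : NeZero a := ⟨ha⟩
    simp only [B]
    rw [ZMod.val_neg_of_ne_zero, Nat.cast_sub (ZMod.val_lt a).le, sub_div,
      div_self (Nat.cast_ne_zero.2 (NeZero.ne f)), Polynomial.bernoulli_eval_one_sub]
    push_cast
    ring
  have hsq : (χ (-1) * (-1) ^ m) = -1 := by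
    rcases χ.even_or_odd with he | ho
    · rcases m.even_or_odd with hm | hm
      · exact absurd (he.trans hm.neg_one_pow.symm) h
      · rw [show χ (-1) = 1 from he, hm.neg_one_pow, one_mul]
    · rcases m.even_or_odd with hm | hm
      · rw [show χ (-1) = -1 from ho, hm.neg_one_pow, mul_one]
      · exact absurd (ho.trans hm.neg_one_pow.symm) h
  have hS : ∑ a, χ a * B a = -∑ a, χ a * B a := by
    conv_lhs => rw [← Equiv.sum_comp (Equiv.neg (ZMod f))]
    simp only [Equiv.neg_apply, hterm, hsq, neg_one_mul, sum_neg_distrib]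
  rw [bernChar, show ∑ a, χ a * B a = 0 from CharZero.eq_neg_self_iff.1 hS, mul_zero]

/-- An odd character does not vanish at negative even integers. -/
theorem lFunction_ne_zero_of_odd {q : ℕ} [NeZero q] {ψ : DirichletCharacter ℂ q}
    (hprim : ψ.IsPrimitive) (ho : ψ.Odd) {k : ℕ} (hk : k ≠ 0) :
    DirichletCharacter.LFunction ψ (-((2 * k : ℕ) : ℂ)) ≠ 0 := by
  intro h
  have hs : (-((2 * k : ℕ) : ℂ)) = 1 - ((2 * k + 1 : ℕ) : ℂ) := by push_cast; ring
  have hne0 : (-((2 * k : ℕ) : ℂ)) ≠ 0 := neg_ne_zero.mpr (Nat.cast_ne_zero.mpr (by omega))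
  rw [DirichletCharacter.LFunction_eq_completed_div_gammaFactor _ _ (Or.inl hne0),
    div_eq_zero_iff] at h
  rcases h with h | h
  · rw [hs, hprim.completedLFunction_one_sub, mul_eq_zero, mul_eq_zero] at h
    have hW : DirichletCharacter.rootNumber ψ ≠ 0 :=
      left_ne_zero_of_mul_eq_one (FA.AbelianFE.rootNumber_mul_inv hprim)
    rcases h with (h | h) | h
    · exact absurd (cpow_eq_zero_iff _ _ |>.mp h).1 (Nat.cast_ne_zero.mpr (NeZero.ne q))
    · exact hW h
    · have hL := DirichletCharacter.LFunction_eq_completed_div_gammaFactor ψ⁻¹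
        ((2 * k + 1 : ℕ) : ℂ) (Or.inl (Nat.cast_ne_zero.mpr (by omega)))
      rw [h, zero_div] at hL
      refine DirichletCharacter.LFunction_ne_zero_of_one_le_re ψ⁻¹ (Or.inr fun e => ?_) ?_ hL
      · have : (2 * k + 1 : ℕ) = 1 := by exact_mod_cast e
        omega
      · rw [natCast_re]
        exact_mod_cast (by omega : 1 ≤ 2 * k + 1)
  · rw [ho.gammaFactor_def, Gammaℝ_eq_zero_iff] at h
    obtain ⟨i, hi⟩ := h
    have h2 : (2 * i + 1 : ℕ) = 2 * k := by
      have h3 : ((2 * i + 1 : ℕ) : ℂ) = ((2 * k : ℕ) : ℂ) := by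
        push_cast at hi ⊢
        linear_combination hi
      exact_mod_cast h3
    omega

/-- Nonvanishing at the integers `≤ -1` of the right parity. -/
theorem lFunction_ne_zero_of_parity {q : ℕ} [NeZero q] {ψ : DirichletCharacter ℂ q}
    (hprim : ψ.IsPrimitive) {m : ℕ} (hm : 2 ≤ m) (hpar : ψ (-1) = (-1) ^ m) :
    DirichletCharacter.LFunction ψ (-((m - 1 : ℕ) : ℂ)) ≠ 0 := by
  rcases ψ.even_or_odd with he | ho
  · obtain ⟨k, rfl⟩ : ∃ k, m = 2 * k + 2 := by
      rcases m.even_or_odd with ⟨r, hr⟩ | hm'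
      · exact ⟨r - 1, by omega⟩
      · rw [show ψ (-1) = 1 from he, hm'.neg_one_pow] at hpar
        norm_num at hpar
    exact FA.AbelianFE.LFunction_ne_zero_of_even hprim he k
  · obtain ⟨k, rfl⟩ : ∃ k, m = 2 * k + 1 := by
      rcases m.even_or_odd with hm' | ⟨r, hr⟩
      · rw [show ψ (-1) = -1 from ho, hm'.neg_one_pow] at hpar
        norm_num at hpar
      · exact ⟨r, hr⟩
    exact lFunction_ne_zero_of_odd hprim ho (by omega)

/-- **The right parity.** -/
theorem bernChar_ne_zero {χ : DirichletCharacter ℂ_[p] f} (hprim : χ.IsPrimitive) {m : ℕ}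
    (hm : 2 ≤ m) (hpar : χ (-1) = (-1) ^ m) : bernChar χ m ≠ 0 := by
  set w : ZMod f → ℚ := fun a => (Polynomial.bernoulli m).eval ((a.val : ℚ) / f)
  set A : AlgNum p := ∑ a : ZMod f, algChar χ a * (w a : AlgNum p)
  set χc : DirichletCharacter ℂ f := (algChar χ).ringHomComp (toC p)
  have hA : bernChar χ m = (f : ℂ_[p]) ^ (m - 1) * toPadic p A := by
    simp only [bernChar, A, w, map_sum, map_mul, map_ratCast, FA.PadicClassNumber.toPadic_algChar]
  intro h0
  rw [hA, mul_eq_zero, or_iff_right (pow_ne_zero _ (Nat.cast_ne_zero.2 (NeZero.ne f))),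
    map_eq_zero] at h0
  have hprimc : χc.IsPrimitive := FA.PadicClassNumber.isPrimitive_ringHomComp (toC p)
    (FA.PadicClassNumber.isPrimitive_algChar hprim)
  have hparc : χc (-1) = (-1) ^ m := by
    have h : algChar χ (-1) = (-1) ^ m := (toPadic p).injective (by
      rw [FA.PadicClassNumber.toPadic_algChar, hpar, map_pow]
      congr 1)
    show toC p (algChar χ (-1)) = _
    rw [h, map_pow, map_neg, map_one]
  refine lFunction_ne_zero_of_parity hprimc hm hparc ?_
  obtain ⟨n, rfl⟩ : ∃ n, m = n + 1 := ⟨m - 1, by omega⟩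
  have hA' : toC p A = 0 := by rw [h0, map_zero]
  simp only [A, w, map_sum, map_mul, map_ratCast] at hA'
  rw [Nat.add_sub_cancel, FA.AbelianFE.LFunction_neg_nat_eq χc (by omega : n ≠ 0)]
  calc ∑ j : ZMod f, χc j * (FA.AbelianFE.bernoulliWeight n f j.val : ℂ) =
      -((f : ℂ) ^ n / (n + 1)) * ∑ j : ZMod f, toC p (algChar χ j) *
        (((Polynomial.bernoulli (n + 1)).eval ((j.val : ℚ) / f) : ℚ) : ℂ) := by
        rw [mul_sum]
        refine sum_congr rfl fun j _ => ?_
        simp only [χc, MulChar.ringHomComp_apply, FA.AbelianFE.bernoulliWeight]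
        push_cast
        ring
    _ = 0 := by rw [hA', mul_zero]

theorem lValue_ne_zero {χ : DirichletCharacter ℂ_[p] f} (hprim : χ.IsPrimitive) {m : ℕ}
    (hm : 2 ≤ m) (hpar : χ (-1) = (-1) ^ m) : lValue χ m ≠ 0 := by
  refine div_ne_zero (neg_ne_zero.2 (mul_ne_zero (sub_ne_zero.2 fun h => ?_)
    (bernChar_ne_zero hprim hm hpar))) (Nat.cast_ne_zero.2 (by omega))
  have h1 := congrArg norm h
  rw [norm_one, norm_mul, FA.PadicDirichletL.norm_prime_pow] at h1
  refine absurd h1.symm (ne_of_lt ((mul_le_of_le_one_left (by positivity)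
    (DirichletCharacter.norm_le_one χ _)).trans_lt (pow_lt_one₀ (by positivity)
    FA.PadicDirichletL.inv_prime_lt_one (by omega))))

theorem neg_one_pow_expo (hp2 : p ≠ 2) (k t : ℕ) :
    (-1 : ℂ_[p]) ^ (k + (p - 1) * t) = (-1) ^ k := by
  rw [pow_add, pow_mul, ((hp.out.odd_of_ne_two hp2).tsub_odd odd_one).neg_one_pow, one_pow,
    mul_one]

/-- **The branches which vanish identically.** -/
theorem branch_eq_zero_iff (hp2 : p ≠ 2) (hf : 1 < f) (hfp : f.Coprime p)
    {χ : DirichletCharacter ℂ_[p] f} (hne : χ ≠ 1) (hprim : χ.IsPrimitive) (k : ℕ) :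
    (∀ t, branch χ k t = 0) ↔ χ (-1) ≠ (-1) ^ k := by
  refine ⟨fun h hpar => ?_, fun h t => ?_⟩
  · have hm : 2 ≤ k + (p - 1) * 2 := by
      have := Nat.sub_pos_of_lt hp.out.one_lt
      omega
    refine lValue_ne_zero hprim hm (hpar.trans (neg_one_pow_expo hp2 k 2).symm) ?_
    rw [← FA.PadicDirichletL.branch_natCast hfp hne (by omega)]
    exact h _
  · refine congrFun (FA.PadicDirichletL.eq_of_eq_on_natCast_succ
      (FA.PadicDirichletL.continuous_branch hfp hne k) (continuous_const (y := 0)) fun n => ?_) t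
    rw [FA.PadicDirichletL.branch_natCast hfp hne (FA.PadicDirichletL.one_le_expo k (by omega)),
      lValue, bernChar_eq_zero hf (by rwa [neg_one_pow_expo hp2]), mul_zero, neg_zero, zero_div]

end FA.PadicIwasawa
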