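import Mathlib.Analysis.Normed.Group.Ultra
import Mathlib.Topology.Algebra.InfiniteSum.Nonarchimedean
import Mathlib.Topology.Algebra.InfiniteSum.NatInt
import Mathlib.Analysis.Normed.Field.Basic
import Mathlib.Analysis.SpecificLimits.Normed
import Mathlib.Tactic.LinearCombination

/-!
# Strassmann's theorem

A series with coefficients tending to zero, the last of greatest absolute value of index `N`, has
at most `N` zeros in the closed unit disc: a zero `α` splits off `z - α` and lowers `N` by one.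
-/

set_option autoImplicit false
set_option linter.unusedSectionVars false

noncomputable section

open Filter Topology Finset

namespace FA.PadicIwasawa

variable {K : Type*} [NormedField K] [IsUltrametricDist K] [CompleteSpace K]

theorem summable_of_tendsto {f : ℕ → K} (hf : Tendsto f atTop (𝓝 0)) : Summable f :=
  NonarchimedeanAddGroup.summable_of_tendsto_cofinite_zero (by rwa [Nat.cofinite_eq_atTop])

theorem tendsto_mul_pow {c : ℕ → K} (hc : Tendsto c atTop (𝓝 0)) {z : K} (hz : ‖z‖ ≤ 1) :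
    Tendsto (fun j => c j * z ^ j) atTop (𝓝 0) := by
  refine squeeze_zero_norm (fun j => ?_) (tendsto_zero_iff_norm_tendsto_zero.1 hc)
  rw [norm_mul, norm_pow]
  exact mul_le_of_le_one_right (norm_nonneg _) (pow_le_one₀ (norm_nonneg _) hz)

theorem norm_tsum_le_of_le {f : ℕ → K} (hf : Tendsto f atTop (𝓝 0)) {C : ℝ} (hC : 0 ≤ C)
    (h : ∀ j, ‖f j‖ ≤ C) : ‖∑' j, f j‖ ≤ C :=
  le_of_tendsto' (summable_of_tendsto hf).hasSum.tendsto_sum_nat.norm fun _ =>
    IsUltrametricDist.norm_sum_le_of_forall_le_of_nonneg hC fun j _ => h j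

theorem norm_tsum_lt {f : ℕ → K} (hf : Tendsto f atTop (𝓝 0)) {C : ℝ} (hC : 0 < C)
    (h : ∀ j, ‖f j‖ < C) : ‖∑' j, f j‖ < C := by
  obtain ⟨M, hM⟩ := Metric.tendsto_atTop.1 hf (C / 2) (half_pos hC)
  obtain ⟨i, -, hi⟩ := (range (M + 1)).exists_max_image (fun j => ‖f j‖) nonempty_range_add_one
  refine (norm_tsum_le_of_le hf (C := max ‖f i‖ (C / 2))
    (le_max_of_le_left (norm_nonneg _)) fun j => ?_).trans_lt (max_lt (h i) (half_lt_self hC))
  rcases lt_or_ge j M with hj | hj
  · exact le_max_of_le_left (hi j (mem_range.2 (Nat.lt_succ_of_lt hj)))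
  · have := hM j hj
    rw [dist_zero_right] at this
    exact le_max_of_le_right this.le

/-- The coefficients after dividing by `z - α`. -/
def quotCoeff (c : ℕ → K) (α : K) (i : ℕ) : K := ∑' j, c (i + 1 + j) * α ^ j

variable {c : ℕ → K} (hc : Tendsto c atTop (𝓝 0)) {α : K} (hα : ‖α‖ ≤ 1)

include hc hα

theorem tendsto_quot_terms (i : ℕ) : Tendsto (fun j => c (i + 1 + j) * α ^ j) atTop (𝓝 0) :=
  tendsto_mul_pow (c := fun j => c (i + 1 + j))
    (hc.comp (tendsto_atTop_mono (fun _ => Nat.le_add_left _ _) tendsto_id)) hα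

theorem quotCoeff_eq (i : ℕ) : quotCoeff c α i = c (i + 1) + α * quotCoeff c α (i + 1) := by
  rw [quotCoeff, (summable_of_tendsto (tendsto_quot_terms hc hα i)).tsum_eq_zero_add, add_zero,
    pow_zero, mul_one, quotCoeff, ← tsum_mul_left]
  congr 1
  refine tsum_congr fun j => ?_
  rw [show i + 1 + (j + 1) = i + 1 + 1 + j by omega, pow_succ]
  ring

theorem norm_quotCoeff_le {i : ℕ} {C : ℝ} (hC : 0 ≤ C) (h : ∀ j, i < j → ‖c j‖ ≤ C) :
    ‖quotCoeff c α i‖ ≤ C :=
  norm_tsum_le_of_le (tendsto_quot_terms hc hα i) hC fun j => by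
    rw [norm_mul, norm_pow]
    exact (mul_le_of_le_one_right (norm_nonneg _) (pow_le_one₀ (norm_nonneg _) hα)).trans
      (h _ (by omega))

theorem norm_quotCoeff_lt {i : ℕ} {C : ℝ} (hC : 0 < C) (h : ∀ j, i < j → ‖c j‖ < C) :
    ‖quotCoeff c α i‖ < C :=
  norm_tsum_lt (tendsto_quot_terms hc hα i) hC fun j => by
    rw [norm_mul, norm_pow]
    exact (mul_le_of_le_one_right (norm_nonneg _) (pow_le_one₀ (norm_nonneg _) hα)).trans_lt
      (h _ (by omega))

theorem tendsto_quotCoeff : Tendsto (quotCoeff c α) atTop (𝓝 0) := by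
  rw [Metric.tendsto_atTop]
  intro ε hε
  obtain ⟨M, hM⟩ := Metric.tendsto_atTop.1 hc ε hε
  refine ⟨M, fun i hi => ?_⟩
  rw [dist_zero_right]
  exact norm_quotCoeff_lt hc hα hε fun j hj => by simpa using hM j (by omega)

/-- Splitting off a zero. -/
theorem sub_mul_tsum_eq (h0 : ∑' j, c j * α ^ j = 0) {z : K} (hz : ‖z‖ ≤ 1) :
    (z - α) * ∑' i, quotCoeff c α i * z ^ i = ∑' j, c j * z ^ j := by
  have hfirst : c 0 + α * quotCoeff c α 0 = 0 := by
    rw [← h0, (summable_of_tendsto (tendsto_mul_pow hc hα)).tsum_eq_zero_add, pow_zero, mul_one,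
      quotCoeff, ← tsum_mul_left]
    congr 1
    refine tsum_congr fun j => ?_
    rw [zero_add, add_comm 1 j, pow_succ]
    ring
  have key : ∀ n, (z - α) * ∑ i ∈ range (n + 1), quotCoeff c α i * z ^ i =
      ∑ i ∈ range (n + 1), c i * z ^ i + quotCoeff c α n * z ^ (n + 1) := fun n => by
    induction n with
    | zero =>
      simp only [zero_add, sum_range_one, pow_zero, pow_one]
      linear_combination -hfirst
    | succ n ih =>
      rw [sum_range_succ _ (n + 1), sum_range_succ _ (n + 1), mul_add, ih, quotCoeff_eq hc hα n]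
      ring
  have h1 := ((summable_of_tendsto (tendsto_mul_pow (tendsto_quotCoeff hc hα) hz)).hasSum
    |>.tendsto_sum_nat.comp (tendsto_add_atTop_nat 1)).const_mul (z - α)
  have h2 : Tendsto (fun n => quotCoeff c α n * z ^ (n + 1)) atTop (𝓝 0) := by
    simpa [pow_succ, ← mul_assoc] using
      (tendsto_mul_pow (tendsto_quotCoeff hc hα) hz).mul_const z
  have h3 := ((summable_of_tendsto (tendsto_mul_pow hc hz)).hasSum.tendsto_sum_nat.comp
    (tendsto_add_atTop_nat 1)).add h2
  rw [add_zero] at h3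
  exact tendsto_nhds_unique h1 (h3.congr fun n => (key n).symm)

omit hα in
/-- **Strassmann's theorem.** -/
theorem strassmann {N : ℕ} (hN : c N ≠ 0) (hle : ∀ j, ‖c j‖ ≤ ‖c N‖)
    (hlt : ∀ j, N < j → ‖c j‖ < ‖c N‖) (s : Finset K)
    (hs : ∀ z ∈ s, ‖z‖ ≤ 1 ∧ ∑' j, c j * z ^ j = 0) : s.card ≤ N := by
  classical
  induction N generalizing c s with
  | zero =>
    refine Nat.le_of_eq (card_eq_zero.2 (eq_empty_of_forall_notMem fun z hz => ?_))
    obtain ⟨hz1, h0⟩ := hs z hz
    have hb := norm_quotCoeff_lt hc hz1 (i := 0) (norm_pos_iff.2 hN) hlt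
    rw [(summable_of_tendsto (tendsto_mul_pow hc hz1)).tsum_eq_zero_add, pow_zero, mul_one] at h0
    have he : c 0 = -(z * quotCoeff c z 0) := by
      rw [quotCoeff, ← tsum_mul_left, eq_neg_iff_add_eq_zero]
      refine Eq.trans ?_ h0
      congr 1
      refine tsum_congr fun j => ?_
      rw [zero_add, add_comm 1 j, pow_succ]
      ring
    have h1 : ‖c 0‖ ≤ ‖quotCoeff c z 0‖ := by
      rw [he, norm_neg, norm_mul]
      exact mul_le_of_le_one_left (norm_nonneg _) hz1
    exact absurd hb (not_lt.2 h1)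
  | succ N ih =>
    rcases s.eq_empty_or_nonempty with rfl | ⟨α, hα⟩
    · simp
    obtain ⟨hα1, h0⟩ := hs α hα
    set b := quotCoeff c α
    have hbN : ‖b N‖ = ‖c (N + 1)‖ := by
      have hlt' : ‖α * b (N + 1)‖ < ‖c (N + 1)‖ := by
        rw [norm_mul]
        exact (mul_le_of_le_one_left (norm_nonneg _) hα1).trans_lt
          (norm_quotCoeff_lt hc hα1 (norm_pos_iff.2 hN) hlt)
      show ‖quotCoeff c α N‖ = _
      rw [quotCoeff_eq hc hα1, IsUltrametricDist.norm_add_eq_max_of_norm_ne_norm hlt'.ne',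
        max_eq_left hlt'.le]
    have hb : (s.erase α).card ≤ N := by
      refine ih (tendsto_quotCoeff hc hα1) (norm_pos_iff.1 (hbN ▸ norm_pos_iff.2 hN))
        (fun i => ?_) (fun i hi => ?_) _ fun z hz => ?_
      · rw [hbN]
        exact norm_quotCoeff_le hc hα1 (norm_nonneg _) fun j _ => hle j
      · rw [hbN]
        exact norm_quotCoeff_lt hc hα1 (norm_pos_iff.2 hN) fun j hj => hlt j (by omega)
      · obtain ⟨hne, hzs⟩ := mem_erase.1 hz
        obtain ⟨hz1, hz0⟩ := hs z hzs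
        rw [← sub_mul_tsum_eq hc hα1 h0 hz1, mul_eq_zero, sub_eq_zero] at hz0
        exact ⟨hz1, hz0.resolve_left hne⟩
    rw [card_erase_of_mem hα] at hb
    omega

omit hα in
/-- A nonzero null sequence has a last index of greatest absolute value. -/
theorem exists_last_max {i : ℕ} (hi : c i ≠ 0) :
    ∃ N, c N ≠ 0 ∧ (∀ j, ‖c j‖ ≤ ‖c N‖) ∧ ∀ j, N < j → ‖c j‖ < ‖c N‖ := by
  classical
  obtain ⟨M, hM⟩ := Metric.tendsto_atTop.1 hc ‖c i‖ (norm_pos_iff.2 hi)
  simp only [dist_zero_right] at hM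
  set T := range (max M i + 1)
  obtain ⟨m, hm, hmax⟩ := T.exists_max_image (fun j => ‖c j‖) nonempty_range_add_one
  set S := T.filter fun j => ‖c j‖ = ‖c m‖ with hS
  have hne : S.Nonempty := ⟨m, mem_filter.2 ⟨hm, rfl⟩⟩
  obtain ⟨hNT, hN⟩ := mem_filter.1 (S.max'_mem hne)
  have hiT : i ∈ T := mem_range.2 (by omega)
  have hle : ∀ j, ‖c j‖ ≤ ‖c m‖ := fun j => by
    by_cases hj : j ∈ T
    · exact hmax j hj
    · have : M ≤ j := by
        have := mem_range.not.1 hj
        omega
      exact (hM j this).le.trans (hmax i hiT)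
  refine ⟨S.max' hne, norm_pos_iff.1 (hN ▸ (norm_pos_iff.2 hi).trans_le (hmax i hiT)),
    fun j => hN ▸ hle j, fun j hj => hN ▸ (hle j).lt_of_ne fun e => ?_⟩
  by_cases hjT : j ∈ T
  · exact absurd (S.le_max' j (mem_filter.2 ⟨hjT, e⟩)) (not_le.2 hj)
  · have : M ≤ j := by
      have := mem_range.not.1 hjT
      omega
    exact absurd ((hM j this).trans_le (hmax i hiT)) (e ▸ lt_irrefl _)

end FA.PadicIwasawa
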