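import Fermat.Agent.PadicIwasawa.Measure
import Fermat.Agent.PadicIwasawa.Strassmann
import Mathlib.Analysis.Normed.Group.FunctionSeries

/-!
# The power series of a branch

For `p` odd the branch at `t` is `∑ a_j ((1 + p)^t - 1)^j`, `a_j` the mass of
`x^(k-1) (logOne x choose j)` on the units. So a branch which is not identically zero has finitely
many zeros, at most `λ` if `a_λ` has the greatest absolute value.
-/

set_option autoImplicit false
set_option linter.unusedSectionVars false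
set_option linter.style.haveILetI false

noncomputable section

open Finset Filter Topology
open FA.PadicDirichletL (branch lValue)
open scoped Classical

namespace FA.PadicIwasawa

variable {p : ℕ} [hp : Fact p.Prime] {f : ℕ} [NeZero f]

theorem continuous_ringInverse : Continuous fun x : ℤ_[p] => Ring.inverse x := by
  refine Metric.continuous_iff.2 fun x ε hε => ⟨min ε 1, lt_min hε one_pos, fun y hy => ?_⟩
  rw [dist_eq_norm] at hy ⊢
  have hu := isUnit_iff_of_norm_sub_lt (hy.trans_le (min_le_right _ _))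
  by_cases hx : IsUnit x
  · have h : Ring.inverse y - Ring.inverse x = Ring.inverse y * Ring.inverse x * (x - y) := by
      linear_combination -Ring.inverse y * Ring.inverse_mul_cancel x hx +
        Ring.inverse x * Ring.inverse_mul_cancel y (hu.2 hx)
    rw [h, norm_mul, norm_sub_rev x y]
    exact (mul_le_of_le_one_left (norm_nonneg _) (PadicInt.norm_le_one _)).trans_lt
      (hy.trans_le (min_le_left _ _))
  · rw [Ring.inverse_non_unit _ hx, Ring.inverse_non_unit _ (mt hu.1 hx), sub_self, norm_zero]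
    exact hε

variable (hp2 : p ≠ 2)

/-- `x ↦ x^(k-1) (logOne x choose j)` on the units, zero elsewhere. -/
def weight (k j : ℕ) : C(ℤ_[p], ℂ_[p]) :=
  toCpMap p ⟨fun x => x ^ k * Ring.inverse x * mahler j (logOne x),
    ((continuous_pow k).mul continuous_ringInverse).mul
      ((mahler j).continuous.comp (continuous_logOne hp2))⟩

theorem norm_weight_le (k j : ℕ) : ‖weight hp2 k j‖ ≤ 1 :=
  (ContinuousMap.norm_le _ zero_le_one).2 fun _ => norm_toCp_le _

variable (hfp : f.Coprime p) {χ : DirichletCharacter ℂ_[p] f} (hne : χ ≠ 1)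

/-- **The coefficients.** -/
def iwasawaCoeff (k j : ℕ) : ℂ_[p] := charMeasure hfp hne (weight hp2 k j)

theorem norm_iwasawaCoeff_le (k j : ℕ) : ‖iwasawaCoeff hp2 hfp hne k j‖ ≤ 1 :=
  (norm_charMeasure_le hfp hne _).trans (norm_weight_le hp2 k j)

variable (p) in
/-- The variable at `t`. -/
def variableAt (t : ℤ_[p]) : ℂ_[p] := toCp p (expOne p t - 1)

theorem continuous_variableAt : Continuous (variableAt p) :=
  continuous_toCp.comp (continuous_expOne.sub continuous_const)

section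

include hp2

theorem norm_variableAt_le (t : ℤ_[p]) : ‖variableAt p t‖ ≤ (p : ℝ)⁻¹ := by
  rw [variableAt, norm_toCp, ← pow_one (p : ℝ)⁻¹, norm_sub_le_iff, map_one,
    toZModPow_expOne_eq_one hp2]
  haveI : Subsingleton (ZMod (p ^ 0)) := ZMod.subsingleton_iff.2 (pow_zero p)
  exact Subsingleton.elim _ _

theorem variableAt_injective : Function.Injective (variableAt p) := fun _ _ h =>
  expOne_injective hp2
  (sub_left_inj.1 ((AddMonoidHomClass.isometry_of_norm (toCp p) norm_toCp).injective h))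

end

/-- Bounded coefficients converge in the disc of radius `1 / p`. -/
theorem norm_term_le {a : ℕ → ℂ_[p]} (ha : ∀ j, ‖a j‖ ≤ 1) {T : ℂ_[p]} (hT : ‖T‖ ≤ (p : ℝ)⁻¹)
    (j : ℕ) : ‖a j * T ^ j‖ ≤ ((p : ℝ)⁻¹) ^ j := by
  rw [norm_mul, norm_pow]
  exact (mul_le_of_le_one_left (by positivity) (ha j)).trans
    (pow_le_pow_left₀ (norm_nonneg _) hT j)

theorem summable_inv_prime_pow : Summable fun j => ((p : ℝ)⁻¹) ^ j :=
  summable_geometric_of_lt_one (by positivity) inv_prime_lt_one'

theorem continuous_series {a : ℕ → ℂ_[p]} (ha : ∀ j, ‖a j‖ ≤ 1) (hp2 : p ≠ 2) :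
    Continuous fun t : ℤ_[p] => ∑' j, a j * variableAt p t ^ j :=
  continuous_tsum (fun j => continuous_const.mul (continuous_variableAt.pow j))
    summable_inv_prime_pow fun j t => norm_term_le ha (norm_variableAt_le hp2 t) j

/-- **A branch is an Iwasawa function.** -/
theorem branch_eq_tsum (k : ℕ) (t : ℤ_[p]) :
    branch χ k t = ∑' j, iwasawaCoeff hp2 hfp hne k j * variableAt p t ^ j := by
  refine congrFun (FA.PadicDirichletL.eq_of_eq_on_natCast_succ
    (FA.PadicDirichletL.continuous_branch hfp hne k)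
    (continuous_series (norm_iwasawaCoeff_le hp2 hfp hne k) hp2) fun n => ?_) t
  set T : ℤ_[p] := ((n + 1 : ℕ) : ℤ_[p])
  have hm : 1 ≤ k + (p - 1) * (n + 1) := FA.PadicDirichletL.one_le_expo k (by omega)
  rw [FA.PadicDirichletL.branch_natCast hfp hne hm, ← charMeasure_powMap hfp hne hm]
  have hlim : Tendsto (fun j => variableAt p T ^ j • weight hp2 k j) atTop (𝓝 0) := by
    refine squeeze_zero_norm (fun j => ?_)
      (tendsto_pow_atTop_nhds_zero_of_lt_one (by positivity) (inv_prime_lt_one' (p := p)))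
    rw [norm_smul, norm_pow]
    exact (mul_le_of_le_one_right (by positivity) (norm_weight_le hp2 k j)).trans
      (pow_le_pow_left₀ (norm_nonneg _) (norm_variableAt_le hp2 T) j)
  obtain ⟨S, hS⟩ : Summable fun j => variableAt p T ^ j • weight hp2 k j :=
    NonarchimedeanAddGroup.summable_of_tendsto_cofinite_zero (by rwa [Nat.cofinite_eq_atTop])
  have hL := hS.mapL (charMeasure hfp hne)
  simp only [map_smul, smul_eq_mul] at hL
  refine Eq.trans (charMeasure_congr hfp hne fun x hx => ?_)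
    ((hL.congr_fun fun j => (mul_comm _ _ : iwasawaCoeff hp2 hfp hne k j * variableAt p T ^ j = _)
      ).tsum_eq.symm)
  have hpow : x ^ k * Ring.inverse x * expOne p (logOne x * T) =
      x ^ (k + (p - 1) * (n + 1) - 1) := by
    refine hx.mul_left_inj.1 ?_
    rw [← pow_succ, Nat.sub_add_cancel hm, mul_comm (logOne x), show T = ((n + 1 : ℕ) : ℤ_[p]) from
      rfl, ← nsmul_eq_mul, AddChar.map_nsmul_eq_pow, expOne_logOne hp2 hx]
    calc x ^ k * Ring.inverse x * (x ^ (p - 1)) ^ (n + 1) * x =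
        x ^ k * (x ^ (p - 1)) ^ (n + 1) * (Ring.inverse x * x) := by ring
      _ = _ := by rw [Ring.inverse_mul_cancel x hx, mul_one, ← pow_mul, ← pow_add]
  refine HasSum.unique ?_ (ContinuousMap.hasSum_apply hS x)
  rw [powMap_apply, ← map_pow, ← hpow, map_mul]
  refine (((hasSum_expOne_mul hp2 (logOne x) T).map (toCp p) continuous_toCp).mul_left
    (toCp p (x ^ k * Ring.inverse x))).congr_fun fun j => ?_
  simp only [ContinuousMap.smul_apply, smul_eq_mul, weight, toCpMap_apply, ContinuousMap.coe_mk,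
    Function.comp_apply, variableAt, map_mul, map_pow]
  ring

/-- The zeros of a series with bounded coefficients in the disc of radius `1 / p`. -/
theorem card_zeros_le {a : ℕ → ℂ_[p]} {lam : ℕ} (hlam : a lam ≠ 0) (hle : ∀ i, ‖a i‖ ≤ ‖a lam‖)
    (s : Finset ℂ_[p]) (hs : ∀ T ∈ s, ‖T‖ ≤ (p : ℝ)⁻¹ ∧ ∑' j, a j * T ^ j = 0) :
    s.card ≤ lam := by
  have hp0 : (p : ℂ_[p]) ≠ 0 := FA.GrossKoblitz.natCast_prime_ne_zero
  have hpinj : Function.Injective fun T : ℂ_[p] => T / (p : ℂ_[p]) := fun _ _ h =>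
    (div_left_inj' hp0).1 h
  have hnorm : ∀ j, ‖a j * (p : ℂ_[p]) ^ j‖ = ‖a j‖ * ((p : ℝ)⁻¹) ^ j := fun j => by
    rw [norm_mul, norm_pow, FA.GrossKoblitz.norm_prime_eq]
  have hc : Tendsto (fun j => a j * (p : ℂ_[p]) ^ j) atTop (𝓝 0) := by
    refine squeeze_zero_norm (fun j => (hnorm j).trans_le
      (mul_le_mul_of_nonneg_right (hle j) (by positivity))) ?_
    simpa using (tendsto_pow_atTop_nhds_zero_of_lt_one (by positivity)
      (inv_prime_lt_one' (p := p))).const_mul ‖a lam‖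
  obtain ⟨N, hN0, hNle, hNlt⟩ := exists_last_max hc (mul_ne_zero hlam (pow_ne_zero lam hp0))
  have hN : N ≤ lam := by
    by_contra h
    refine absurd (hNle lam) (not_le.2 ?_)
    rw [hnorm, hnorm]
    exact (mul_le_mul_of_nonneg_right (hle N) (by positivity)).trans_lt
      (mul_lt_mul_of_pos_left (pow_lt_pow_right_of_lt_one₀
        (inv_pos.2 (by exact_mod_cast hp.out.pos)) inv_prime_lt_one' (not_le.1 h))
        (norm_pos_iff.2 hlam))
  rw [← Finset.card_image_of_injective s hpinj]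
  refine (strassmann hc hN0 hNle hNlt _ fun z hz => ?_).trans hN
  obtain ⟨T, hT, rfl⟩ := Finset.mem_image.1 hz
  obtain ⟨h1, h2⟩ := hs T hT
  refine ⟨?_, (tsum_congr fun j => ?_).trans h2⟩
  · rw [norm_div, FA.GrossKoblitz.norm_prime_eq,
      div_le_one (inv_pos.2 (by exact_mod_cast hp.out.pos))]
    exact h1
  · rw [div_pow, mul_assoc, mul_div_cancel₀ _ (pow_ne_zero j hp0)]

theorem finite_zeros {a : ℕ → ℂ_[p]} (ha : ∀ j, ‖a j‖ ≤ 1) {i : ℕ} (hi : a i ≠ 0) :
    {T : ℂ_[p] | ‖T‖ ≤ (p : ℝ)⁻¹ ∧ ∑' j, a j * T ^ j = 0}.Finite := by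
  have hp0 : (p : ℂ_[p]) ≠ 0 := FA.GrossKoblitz.natCast_prime_ne_zero
  have hnorm : ∀ j, ‖a j * (p : ℂ_[p]) ^ j‖ ≤ ((p : ℝ)⁻¹) ^ j := fun j =>
    norm_term_le ha (FA.GrossKoblitz.norm_prime_eq (p := p)).le j
  obtain ⟨N, hN0, hNle, hNlt⟩ := exists_last_max (squeeze_zero_norm hnorm
    (tendsto_pow_atTop_nhds_zero_of_lt_one (by positivity) inv_prime_lt_one'))
    (mul_ne_zero hi (pow_ne_zero i hp0))
  by_contra hinf
  obtain ⟨s, hs, hcard⟩ := (Set.not_finite.1 hinf).exists_subset_card_eq (N + 1)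
  have hpinj : Function.Injective fun T : ℂ_[p] => T / (p : ℂ_[p]) := fun _ _ h =>
    (div_left_inj' hp0).1 h
  have h := strassmann (squeeze_zero_norm hnorm (tendsto_pow_atTop_nhds_zero_of_lt_one
    (by positivity) inv_prime_lt_one')) hN0 hNle hNlt (s.image fun T : ℂ_[p] => T / (p : ℂ_[p]))
    fun z hz => by
      obtain ⟨T, hT, rfl⟩ := Finset.mem_image.1 hz
      obtain ⟨h1, h2⟩ := hs hT
      refine ⟨?_, (tsum_congr fun j => ?_).trans h2⟩
      · rw [norm_div, FA.GrossKoblitz.norm_prime_eq,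
          div_le_one (inv_pos.2 (by exact_mod_cast hp.out.pos))]
        exact h1
      · rw [div_pow, mul_assoc, mul_div_cancel₀ _ (pow_ne_zero j hp0)]
  rw [Finset.card_image_of_injective s hpinj] at h
  omega

/-- **The coefficients are unique.** -/
theorem coeff_unique {a b : ℕ → ℂ_[p]} (hp2 : p ≠ 2) (ha : ∀ j, ‖a j‖ ≤ 1) (hb : ∀ j, ‖b j‖ ≤ 1)
    (h : ∀ t : ℤ_[p], ∑' j, a j * variableAt p t ^ j = ∑' j, b j * variableAt p t ^ j) : a = b := by
  by_contra hab
  obtain ⟨i, hi⟩ := Function.ne_iff.1 hab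
  have hd : ∀ j, ‖a j - b j‖ ≤ 1 := fun j => by
    rw [sub_eq_add_neg]
    exact (IsUltrametricDist.norm_add_le_max _ _).trans
      (max_le (ha j) (by rw [norm_neg]; exact hb j))
  haveI : Infinite ℤ_[p] := Infinite.of_injective _ (Nat.cast_injective (R := ℤ_[p]))
  refine ((Set.infinite_range_of_injective (variableAt_injective hp2)).mono ?_)
    (finite_zeros (a := fun j => a j - b j) hd (sub_ne_zero.2 hi))
  rintro _ ⟨t, rfl⟩
  have hs : ∀ c : ℕ → ℂ_[p], (∀ j, ‖c j‖ ≤ 1) → Summable fun j => c j * variableAt p t ^ j :=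
    fun c hc => Summable.of_norm_bounded summable_inv_prime_pow
      (norm_term_le hc (norm_variableAt_le hp2 t))
  refine ⟨norm_variableAt_le hp2 t, ?_⟩
  simp only [sub_mul]
  rw [(hs a ha).tsum_sub (hs b hb), h t, sub_self]

include hp2 hfp hne

/-- A branch which is not zero somewhere has finitely many zeros. -/
theorem finite_zeros_branch {k : ℕ} {t₀ : ℤ_[p]} (h₀ : branch χ k t₀ ≠ 0) :
    {t : ℤ_[p] | branch χ k t = 0}.Finite := by
  obtain ⟨i, hi⟩ : ∃ i, iwasawaCoeff hp2 hfp hne k i ≠ 0 := by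
    by_contra h
    push Not at h
    exact h₀ (by rw [branch_eq_tsum hp2 hfp hne]; simp [h])
  refine Set.Finite.of_finite_image (((finite_zeros (norm_iwasawaCoeff_le hp2 hfp hne k) hi)).subset
    ?_) (variableAt_injective hp2).injOn
  rintro _ ⟨t, ht, rfl⟩
  exact ⟨norm_variableAt_le hp2 t, (branch_eq_tsum hp2 hfp hne k t).symm.trans ht⟩

/-- At most `λ` zeros. -/
theorem card_zeros_branch_le {k lam : ℕ} (hlam : iwasawaCoeff hp2 hfp hne k lam ≠ 0)
    (hle : ∀ i, ‖iwasawaCoeff hp2 hfp hne k i‖ ≤ ‖iwasawaCoeff hp2 hfp hne k lam‖)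
    (s : Finset ℤ_[p]) (hs : ∀ t ∈ s, branch χ k t = 0) : s.card ≤ lam := by
  rw [← Finset.card_image_of_injective s (variableAt_injective hp2)]
  refine card_zeros_le hlam hle _ fun T hT => ?_
  obtain ⟨t, ht, rfl⟩ := Finset.mem_image.1 hT
  exact ⟨norm_variableAt_le hp2 t, (branch_eq_tsum hp2 hfp hne k t).symm.trans (hs t ht)⟩

end FA.PadicIwasawa
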